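import Mathlib
import Fermat.Agent.LT.H556.A0
import Fermat.Agent.LT.T1.Spec
import Fermat.Agent.LT.T2.Spec
import Fermat.Agent.LT.T2.SpecTau
import Fermat.Agent.LT.T2.H291.OpsSpecT
import Fermat.Agent.LT.T2.H472.LocCont
import Fermat.Agent.LT.T2.H770.MeanAdj

/-!
# Row LT, tower T2, sub-leaves T2.27.15 / T2.27.16 (helper899): common core of the `T`-forms

OFF-MAIN.  Vocabulary: `LT/H556/A0.lean`, `LT/T1/Spec.lean`, `LT/T2/Spec.lean` (v3),
`LT/T2/SpecTau.lean`, `LT/T2/H291/OpsSpecT.lean` (helper291, sha256 c8359c85), byte-identical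
copies; assets `locCont472` (helper472) and the component calculus / matrix identities of
helper770 (`LT/T2/H770/{Comp,MeanAdj}.lean`), byte-identical copies.  Nothing is assumed, no opaque
constant, no placeholder proof.

* `TranslInvT899 R` = the statement of T2.27.00 (`SubTranslT291`) for the frame `R`.
* `rayGen_central899`: the ray generator is central.
* `isArchCompact_rot899`, `continuous_rot899`, `continuous_sphereT899`: the parametrisations.
* `tau_ne_zero899`, `norm_tau_inv899`, `conj_tau_inv899`, `continuous_tau_rot899`: the type on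
  the compact group at `w`.
-/

set_option autoImplicit false
set_option linter.unusedSectionVars false

open IsDedekindDomain NumberField MeasureTheory
open Fermat.Agent.LT.H556.A0
open Fermat.Agent.LT.T2 Fermat.Agent.LT.T2.H472 Fermat.Agent.LT.T2.H770
open scoped ComplexConjugate

noncomputable section

namespace Fermat.Agent.LT.T2.H899

variable {K : Type} [Field K] [NumberField K]

attribute [local instance] Fermat.Agent.LT.T2.borelG

/-! ## 1. The KEY LEMMA for one frame -/

/-- The statement of T2.27.00 (`SubTranslT291`) for one frame. -/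
def TranslInvT899 (R : FrameR K) : Prop :=
  ∀ (Φ : G K → ℂ),
    (∀ (γ : GL (Fin 2) K) (g : G K), Φ (T1.ratG K γ * g) = Φ g) →
    (∀ g : G K, Φ (g * R.r) = Φ g) →
    ∀ h : G K, ∫ g in R.F.D, Φ (g * h) ∂(R.F.μ) = ∫ g in R.F.D, Φ g ∂(R.F.μ)

theorem translInvT_of_sub899 (hT : H291.SubTranslT291 K) (h1 : T1.T1Out K) (R : FrameR K) :
    TranslInvT899 R := fun Φ hl hr h => hT h1 R Φ hl hr h

/-! ## 2. The ray generator -/

theorem rayGen_diagPos899 {r : G K} (hr : IsRayGen r) : IsDiagPosScalar r := by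
  obtain ⟨hfin, t, ht, -, hinf⟩ := hr
  exact ⟨hfin, t, ht, hinf⟩

/-- The ray generator is central. -/
theorem rayGen_central899 {r : G K} (hr : IsRayGen r) (g : G K) : g * r = r * g :=
  diagPos_central770 (rayGen_diagPos899 hr) g

/-! ## 3. The parametrisations -/

theorem isArchCompact_rot899 {w : InfinitePlace K} {k : ℝ → G K} (hk : IsRotAt w k) (θ : ℝ) :
    IsArchCompact w (k θ) :=
  ⟨(hk θ).1, by rw [(hk θ).2]; exact rotY_unitary770 θ, fun _ => by
    rw [(hk θ).2]; exact rotY_det770 θ⟩

theorem continuous_rotY899 : Continuous rotY := by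
  refine continuous_matrix fun i j => ?_
  fin_cases i <;> fin_cases j <;> simp [rotY] <;> fun_prop

theorem continuous_rotZ899 : Continuous rotZ := by
  refine continuous_matrix fun i j => ?_
  fin_cases i <;> fin_cases j <;> simp [rotZ] <;> fun_prop

/-- The parametrisation of the rotations at a real place is continuous. -/
theorem continuous_rot899 {w : InfinitePlace K} {k : ℝ → G K} (hk : IsRotAt w k) :
    Continuous k := by
  refine locCont472 K w ℝ k (fun θ => (hk θ).1) (fun i j => ?_)
  have h1 : (fun θ : ℝ => infComp w (k θ) i j) = fun θ : ℝ => rotY θ i j := by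
    funext θ
    rw [(hk θ).2]
  rw [h1]
  exact continuous_rotY899.matrix_elem i j

/-- The parametrisation of a sphere is continuous. -/
theorem continuous_sphereT899 {w : InfinitePlace K} {d : ℝ} {Y : ℝ → ℝ → G K}
    (hY : IsSphereAt w d Y) : Continuous (fun p : ℝ × ℝ => Y p.1 p.2) := by
  refine locCont472 K w (ℝ × ℝ) _ (fun p => (hY p.1 p.2).1) (fun i j => ?_)
  have h1 : (fun p : ℝ × ℝ => infComp w (Y p.1 p.2) i j)
      = fun p : ℝ × ℝ => (rotZ p.1 * rotY p.2 * torus d) i j := by
    funext p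
    rw [(hY p.1 p.2).2]
  rw [h1]
  have h2 : Continuous (fun p : ℝ × ℝ => rotZ p.1 * rotY p.2 * torus d) :=
    ((continuous_rotZ899.comp continuous_fst).matrix_mul
      (continuous_rotY899.comp continuous_snd)).matrix_mul continuous_const
  exact h2.matrix_elem i j

/-! ## 4. The type on the compact group at `w` -/

theorem tau_ne_zero899 {τ : G K → ℂ} (hτ : IsKType τ) {w : InfinitePlace K} {k : G K}
    (hk : IsArchCompact w k) : τ k ≠ 0 := by
  intro h
  have := hτ.norm_one w k hk
  rw [h, norm_zero] at this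
  exact zero_ne_one this

theorem norm_tau_inv899 {τ : G K → ℂ} (hτ : IsKType τ) {w : InfinitePlace K} {k : G K}
    (hk : IsArchCompact w k) : ‖(τ k)⁻¹‖ = 1 := by
  rw [norm_inv, hτ.norm_one w k hk, inv_one]

/-- `conj τ(k) = τ(k)⁻¹`. -/
theorem conj_tau899 {τ : G K → ℂ} (hτ : IsKType τ) {w : InfinitePlace K} {k : G K}
    (hk : IsArchCompact w k) : conj (τ k) = (τ k)⁻¹ := by
  have h0 := tau_ne_zero899 hτ hk
  have h1 : τ k * conj (τ k) = 1 := by
    rw [Complex.mul_conj, Complex.normSq_eq_norm_sq, hτ.norm_one w k hk]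
    simp
  field_simp
  rw [mul_comm]
  exact h1

/-- `conj (τ(k)⁻¹) = τ(k)`. -/
theorem conj_tau_inv899 {τ : G K → ℂ} (hτ : IsKType τ) {w : InfinitePlace K} {k : G K}
    (hk : IsArchCompact w k) : conj ((τ k)⁻¹) = τ k := by
  rw [map_inv₀, conj_tau899 hτ hk, inv_inv]

/-- `θ ↦ τ(k_θ)` is continuous. -/
theorem continuous_tau_rot899 {τ : G K → ℂ} (hτ : IsKType τ) {w : InfinitePlace K}
    {k : ℝ → G K} (hk : IsRotAt w k) : Continuous (fun θ => τ (k θ)) := by
  have h1 : ContinuousOn τ {x : G K | IsArchCompact w x} := hτ.cont w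
  have h2 : Continuous k := continuous_rot899 hk
  have h3 : ∀ θ, k θ ∈ {x : G K | IsArchCompact w x} := fun θ => isArchCompact_rot899 hk θ
  exact h1.comp_continuous h2 h3

/-- `θ ↦ τ(k_θ)⁻¹` is continuous. -/
theorem continuous_tau_rot_inv899 {τ : G K → ℂ} (hτ : IsKType τ) {w : InfinitePlace K}
    {k : ℝ → G K} (hk : IsRotAt w k) : Continuous (fun θ => (τ (k θ))⁻¹) :=
  (continuous_tau_rot899 hτ hk).inv₀ (fun θ => tau_ne_zero899 hτ (isArchCompact_rot899 hk θ))

end Fermat.Agent.LT.T2.H899

end
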