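import Mathlib
import Fermat.Agent.LT.H556.A0
import Fermat.Agent.LT.T1.Spec
import Fermat.Agent.LT.T2.Spec
import Fermat.Agent.LT.T2.SpecTau
import Fermat.Agent.LT.T2.H291.OpsSpecT
import Fermat.Agent.LT.T2.H770.MeanAdj
import Fermat.Agent.LT.T2.H899.MeanCoreT

/-!
# Row LT, tower T2, sub-leaf T2.27.16 `SubMeanAdjT291` (helper899): the sphere means and the
`τ`-twisted circle means are self-adjoint on the cusp functions of the class `(𝔫, τ, r)`

OFF-MAIN.  `T`-form of T2.07.16 (helper770): SAME proof with `τ`, `r` as parameters.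
Spec: `LT/T2/H291/OpsSpecT.lean` (helper291, sha256 c8359c85), byte-identical copy.
Assets (byte-identical copies): `B770`, `mean_adj_abstract770`, `sphereMean_eq770`, `nuS770`,
`nuC770`, the component calculus and the matrix identities of helper770; `locCont472`
(helper472).  Nothing is assumed, no opaque constant, no placeholder proof.

Proof.  `B(h) = ∫_D φ(g h) conj ψ(g) dμ(g)`.
* KEY LEMMA T2.27.00 applied to `Φ(g) = φ(g h₂⁻¹ h₁) conj ψ(g)` (left invariant under `GL₂(K)`,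
  right invariant under the ray generator `r`, which is central):
  `∫_D φ(g h₁) conj ψ(g h₂) = B(h₂⁻¹ h₁)` (`translT899`).
* `B(k h) = τ(k) B(h)`, `B(h k⁻¹) = τ(k)⁻¹ B(h)` for `k` in the compact group at `w`
  (`B_leftT899`, `B_rightT899`; `conj τ(k)⁻¹ = τ(k)`).
* For `y = κ a` (`κ` compact at `w`, `a` of component `torus d`):
  `∫_D φ(g y) conj ψ(g) = τ(κ) B(a)` and `∫_D φ(g) conj ψ(g y) = τ(κ)⁻¹ B(a)`
  (`pointwiseT899`; `a⁻¹ = J a J⁻¹`, the factors `τ(J)`, `τ(J)⁻¹` cancel).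
* Complex place: `τ(κ) = 1` for `κ` of component `rotZ α * rotY β` (`tau_sphere899`): a
  one-parameter group `κ_γ` with `J κ_{-γ} = κ_γ J` has `τ(κ_γ)² = 1`, hence
  `τ(κ_γ) = τ(κ_{γ/2})² = 1` (`tau_one_of_flip899`); all the elements are taken from the
  parametrisation `Y` itself.  Then Fubini (`mean_adj_abstract770`).
* Real place: Fubini with the complex weight `τ(k_θ)⁻¹` (`mean_adj_abstractC899`).
-/

set_option autoImplicit false
set_option linter.unusedSectionVars false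

open IsDedekindDomain NumberField MeasureTheory
open Fermat.Agent.LT.H556.A0
open Fermat.Agent.LT.T2 Fermat.Agent.LT.T2.H472 Fermat.Agent.LT.T2.H770
open scoped ComplexConjugate

noncomputable section

namespace Fermat.Agent.LT.T2.H899

variable {K : Type} [Field K] [NumberField K]

attribute [local instance] Fermat.Agent.LT.T2.borelG

/-! ## 1. The abstract Fubini argument with a complex weight -/

/-- If `s(p) ∫_D φ(g y_p) conj ψ(g) = conj s(p) ∫_D φ(g) conj ψ(g y_p)` for every point of a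
continuous family, then the mean over the family (finite measure `ν`, bounded continuous complex
weight `s`) is self-adjoint on the bounded continuous functions. -/
theorem mean_adj_abstractC899 {G P : Type*} [Group G] [TopologicalSpace G]
    [IsTopologicalGroup G] [MeasurableSpace G] [BorelSpace G] [TopologicalSpace P]
    [SecondCountableTopology P] [MeasurableSpace P] [BorelSpace P] (μ : Measure G) (D : Set G)
    (hD : μ D < ⊤) (ν : Measure P) [IsFiniteMeasure ν] {φ ψ : G → ℂ} (hφ : Continuous φ)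
    (hψ : Continuous ψ) {Cφ Cψ : ℝ} (hCφ : ∀ g, ‖φ g‖ ≤ Cφ) (hCψ : ∀ g, ‖ψ g‖ ≤ Cψ)
    {y : P → G} (hy : Continuous y) {s : P → ℂ} (hs : Continuous s) {Cs : ℝ}
    (hCs : ∀ p, ‖s p‖ ≤ Cs)
    (hpt : ∀ p, s p * ∫ g in D, φ (g * y p) * conj (ψ g) ∂μ
      = conj (s p) * ∫ g in D, φ g * conj (ψ (g * y p)) ∂μ) :
    ∫ g in D, (∫ p, s p * φ (g * y p) ∂ν) * conj (ψ g) ∂μ
      = ∫ g in D, φ g * conj (∫ p, s p * ψ (g * y p) ∂ν) ∂μ := by
  have : IsFiniteMeasure (μ.restrict D) := ⟨by rw [Measure.restrict_apply_univ]; exact hD⟩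
  have hCφ0 : 0 ≤ Cφ := (norm_nonneg _).trans (hCφ 1)
  have hCψ0 : 0 ≤ Cψ := (norm_nonneg _).trans (hCψ 1)
  have hmul : Continuous fun q : G × P => q.1 * y q.2 :=
    continuous_fst.mul (hy.comp continuous_snd)
  have hsC : Continuous fun q : G × P => s q.2 := hs.comp continuous_snd
  have hc1 : Continuous fun q : G × P => s q.2 * φ (q.1 * y q.2) * conj (ψ q.1) :=
    (hsC.mul (hφ.comp hmul)).mul (Complex.continuous_conj.comp (hψ.comp continuous_fst))
  have hc2 : Continuous fun q : G × P => φ q.1 * conj (s q.2 * ψ (q.1 * y q.2)) :=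
    (hφ.comp continuous_fst).mul (Complex.continuous_conj.comp (hsC.mul (hψ.comp hmul)))
  have hi1 : Integrable (Function.uncurry fun (g : G) (p : P) =>
      s p * φ (g * y p) * conj (ψ g)) ((μ.restrict D).prod ν) := by
    refine Integrable.of_bound hc1.aestronglyMeasurable (Cs * Cφ * Cψ)
      (Filter.Eventually.of_forall fun q => ?_)
    show ‖s q.2 * φ (q.1 * y q.2) * conj (ψ q.1)‖ ≤ _
    rw [norm_mul, norm_mul, RCLike.norm_conj]
    have h0 : 0 ≤ Cs := (norm_nonneg _).trans (hCs q.2)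
    exact mul_le_mul (mul_le_mul (hCs _) (hCφ _) (norm_nonneg _) h0) (hCψ _) (norm_nonneg _)
      (mul_nonneg h0 hCφ0)
  have hi2 : Integrable (Function.uncurry fun (g : G) (p : P) =>
      φ g * conj (s p * ψ (g * y p))) ((μ.restrict D).prod ν) := by
    refine Integrable.of_bound hc2.aestronglyMeasurable (Cφ * (Cs * Cψ))
      (Filter.Eventually.of_forall fun q => ?_)
    show ‖φ q.1 * conj (s q.2 * ψ (q.1 * y q.2))‖ ≤ _
    rw [norm_mul, RCLike.norm_conj, norm_mul]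
    have h0 : 0 ≤ Cs := (norm_nonneg _).trans (hCs q.2)
    exact mul_le_mul (hCφ _) (mul_le_mul (hCs _) (hCψ _) (norm_nonneg _) h0)
      (mul_nonneg (norm_nonneg _) (norm_nonneg _)) hCφ0
  calc ∫ g in D, (∫ p, s p * φ (g * y p) ∂ν) * conj (ψ g) ∂μ
      = ∫ g in D, ∫ p, s p * φ (g * y p) * conj (ψ g) ∂ν ∂μ := by
        congr 1
        funext g
        rw [integral_mul_const]
    _ = ∫ p, ∫ g in D, s p * φ (g * y p) * conj (ψ g) ∂μ ∂ν :=
        integral_integral_swap hi1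
    _ = ∫ p, s p * ∫ g in D, φ (g * y p) * conj (ψ g) ∂μ ∂ν := by
        congr 1
        funext p
        rw [← integral_const_mul]
        congr 1
        funext g
        ring
    _ = ∫ p, conj (s p) * ∫ g in D, φ g * conj (ψ (g * y p)) ∂μ ∂ν := by
        congr 1
        funext p
        rw [hpt p]
    _ = ∫ p, ∫ g in D, φ g * conj (s p * ψ (g * y p)) ∂μ ∂ν := by
        congr 1
        funext p
        rw [← integral_const_mul]
        congr 1
        funext g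
        rw [map_mul]
        ring
    _ = ∫ g in D, ∫ p, φ g * conj (s p * ψ (g * y p)) ∂ν ∂μ :=
        (integral_integral_swap hi2).symm
    _ = ∫ g in D, φ g * conj (∫ p, s p * ψ (g * y p) ∂ν) ∂μ := by
        congr 1
        funext g
        rw [integral_const_mul, integral_conj]

/-! ## 2. The KEY LEMMA on the class -/

/-- The KEY LEMMA on the automorphic functions of the class:
`∫_D φ(g h₁) conj ψ(g h₂) = B(h₂⁻¹ h₁)`. -/
theorem translT899 (R : FrameR K) (hTr : TranslInvT899 R) {𝔫 : Ideal (𝓞 K)} {τ : G K → ℂ}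
    {φ ψ : G K → ℂ} (hφ : IsAutT 𝔫 τ R.r φ) (hψ : IsAutT 𝔫 τ R.r ψ) (h₁ h₂ : G K) :
    ∫ g in R.F.D, φ (g * h₁) * conj (ψ (g * h₂)) ∂(R.F.μ) = B770 R.F φ ψ (h₂⁻¹ * h₁) := by
  have hleft : ∀ (γ : GL (Fin 2) K) (g : G K),
      φ (T1.ratG K γ * g * (h₂⁻¹ * h₁)) * conj (ψ (T1.ratG K γ * g))
        = φ (g * (h₂⁻¹ * h₁)) * conj (ψ g) := by
    intro γ g
    rw [mul_assoc,
      show φ (T1.ratG K γ * (g * (h₂⁻¹ * h₁))) = φ (g * (h₂⁻¹ * h₁)) from hφ.left_inv γ _,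
      show ψ (T1.ratG K γ * g) = ψ g from hψ.left_inv γ g]
  have hray : ∀ g : G K,
      φ (g * R.r * (h₂⁻¹ * h₁)) * conj (ψ (g * R.r)) = φ (g * (h₂⁻¹ * h₁)) * conj (ψ g) := by
    intro g
    have e : g * R.r * (h₂⁻¹ * h₁) = g * (h₂⁻¹ * h₁) * R.r := by
      rw [mul_assoc, ← rayGen_central899 R.ray (h₂⁻¹ * h₁), ← mul_assoc]
    rw [e, hφ.ray, hψ.ray]
  have key := hTr (fun g => φ (g * (h₂⁻¹ * h₁)) * conj (ψ g)) hleft hray h₂
  unfold B770
  rw [← key]
  congr 1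
  funext g
  show φ (g * h₁) * conj (ψ (g * h₂)) = φ (g * h₂ * (h₂⁻¹ * h₁)) * conj (ψ (g * h₂))
  rw [show g * h₂ * (h₂⁻¹ * h₁) = g * h₁ by group]

/-- `B(k h) = τ(k) B(h)` for `k` in the compact group at `w`. -/
theorem B_leftT899 (R : FrameR K) (hTr : TranslInvT899 R) {𝔫 : Ideal (𝓞 K)} {τ : G K → ℂ}
    (hτ : IsKType τ) {φ ψ : G K → ℂ} (hφ : IsAutT 𝔫 τ R.r φ) (hψ : IsAutT 𝔫 τ R.r ψ)
    {w : InfinitePlace K} {k : G K} (hk : IsArchCompact w k) (h : G K) :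
    B770 R.F φ ψ (k * h) = τ k * B770 R.F φ ψ h := by
  have key := translT899 R hTr hφ hψ h k⁻¹
  rw [inv_inv] at key
  rw [← key]
  unfold B770
  rw [← integral_const_mul]
  congr 1
  funext g
  have e : ψ (g * k⁻¹ * k) = τ k * ψ (g * k⁻¹) := hψ.arch_compact w k hk (g * k⁻¹)
  rw [inv_mul_cancel_right] at e
  have h0 := tau_ne_zero899 hτ hk
  show φ (g * h) * conj (ψ (g * k⁻¹)) = τ k * (φ (g * h) * conj (ψ g))
  rw [e, map_mul, conj_tau899 hτ hk]
  field_simp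

/-- `B(h k⁻¹) = τ(k)⁻¹ B(h)` for `k` in the compact group at `w`. -/
theorem B_rightT899 (R : FrameR K) {𝔫 : Ideal (𝓞 K)} {τ : G K → ℂ} (hτ : IsKType τ)
    {φ : G K → ℂ} (ψ : G K → ℂ) (hφ : IsAutT 𝔫 τ R.r φ) {w : InfinitePlace K} {k : G K}
    (hk : IsArchCompact w k) (h : G K) :
    B770 R.F φ ψ (h * k⁻¹) = (τ k)⁻¹ * B770 R.F φ ψ h := by
  unfold B770
  rw [← integral_const_mul]
  congr 1
  funext g
  have e : φ (g * (h * k⁻¹) * k) = τ k * φ (g * (h * k⁻¹)) :=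
    hφ.arch_compact w k hk (g * (h * k⁻¹))
  rw [show g * (h * k⁻¹) * k = g * h by group] at e
  have h0 := tau_ne_zero899 hτ hk
  show φ (g * (h * k⁻¹)) * conj (ψ g) = (τ k)⁻¹ * (φ (g * h) * conj (ψ g))
  rw [e]
  field_simp

/-! ## 3. The pointwise identities -/

/-- **Pointwise identities.**  `y = κ · torus d` at `w` with `κ` in the compact group, `a` and
`j` the elements of components `torus d`, `rotY π · torus d`:
`∫_D φ(g y) conj ψ(g) = τ(y a⁻¹) B(a)` and `∫_D φ(g) conj ψ(g y) = τ(y a⁻¹)⁻¹ B(a)`. -/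
theorem pointwiseT899 (R : FrameR K) (hTr : TranslInvT899 R) {𝔫 : Ideal (𝓞 K)} {τ : G K → ℂ}
    (hτ : IsKType τ) {φ ψ : G K → ℂ} (hφ : IsAutT 𝔫 τ R.r φ) (hψ : IsAutT 𝔫 τ R.r ψ)
    {w : InfinitePlace K} {d : ℝ} {y a j : G K} {κ : Matrix (Fin 2) (Fin 2) ℂ}
    (hκ : κ * κ.conjTranspose = 1) (hκdet : w.IsReal → κ.det = 1)
    (hy : IsLocalAtInf w y) (hyc : infComp w y = κ * torus d)
    (ha : IsLocalAtInf w a) (hac : infComp w a = torus d)
    (hj : IsLocalAtInf w j) (hjc : infComp w j = rotY Real.pi * torus d) :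
    ∫ g in R.F.D, φ (g * y) * conj (ψ g) ∂(R.F.μ) = τ (y * a⁻¹) * B770 R.F φ ψ a ∧
      ∫ g in R.F.D, φ g * conj (ψ (g * y)) ∂(R.F.μ) = (τ (y * a⁻¹))⁻¹ * B770 R.F φ ψ a := by
  have ha' : IsLocalAtInf w a⁻¹ := isLocalAtInf_inv472 ha
  have hta : torus d * infComp w a⁻¹ = 1 := by
    rw [← hac]
    exact infComp_mul_inv770 w a
  have hkc : infComp w (y * a⁻¹) = κ := by
    rw [infComp_mul770, hyc, mul_assoc, hta, mul_one]
  have hk : IsArchCompact w (y * a⁻¹) :=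
    ⟨isLocalAtInf_mul770 hy ha', by rw [hkc]; exact hκ, fun hw => by rw [hkc]; exact hκdet hw⟩
  have hJc : infComp w (j * a⁻¹) = rotY Real.pi := by
    rw [infComp_mul770, hjc, mul_assoc, hta, mul_one]
  have hJ : IsArchCompact w (j * a⁻¹) :=
    ⟨isLocalAtInf_mul770 hj ha', by rw [hJc]; exact rotY_unitary770 _,
      fun _ => by rw [hJc]; exact rotY_det770 _⟩
  have haJa : a * (j * a⁻¹) * a = j * a⁻¹ := by
    apply eq_of_local770 (isLocalAtInf_mul770 (isLocalAtInf_mul770 ha hJ.1) ha) hJ.1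
    rw [infComp_mul770, infComp_mul770, hJc, hac, torus_rotY_pi770]
  have hyk : y = (y * a⁻¹) * a := by group
  have hainv : a⁻¹ = (j * a⁻¹) * a * (j * a⁻¹)⁻¹ := by
    have h' : (j * a⁻¹)⁻¹ = (a * (j * a⁻¹) * a)⁻¹ := by rw [haJa]
    rw [h']
    group
  have h0 := tau_ne_zero899 hτ hk
  have hJ0 := tau_ne_zero899 hτ hJ
  have e1 : B770 R.F φ ψ y = τ (y * a⁻¹) * B770 R.F φ ψ a := by
    conv_lhs => rw [hyk]
    exact B_leftT899 R hTr hτ hφ hψ hk a
  have e2 : B770 R.F φ ψ y⁻¹ = (τ (y * a⁻¹))⁻¹ * B770 R.F φ ψ a⁻¹ := by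
    have e : y⁻¹ = a⁻¹ * (y * a⁻¹)⁻¹ := by group
    conv_lhs => rw [e]
    exact B_rightT899 R hτ ψ hφ hk a⁻¹
  have e3 : B770 R.F φ ψ a⁻¹ = B770 R.F φ ψ a := by
    conv_lhs => rw [hainv]
    rw [B_rightT899 R hτ ψ hφ hJ ((j * a⁻¹) * a), B_leftT899 R hTr hτ hφ hψ hJ a,
      ← mul_assoc, inv_mul_cancel₀ hJ0, one_mul]
  have e4 : ∫ g in R.F.D, φ g * conj (ψ (g * y)) ∂(R.F.μ) = B770 R.F φ ψ y⁻¹ := by
    have key := translT899 R hTr hφ hψ 1 y
    rw [mul_one] at key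
    rw [← key]
    congr 1
    funext g
    rw [mul_one]
  refine ⟨e1, ?_⟩
  rw [e4, e2, e3]

/-! ## 4. The type is trivial on the elements of the sphere -/

theorem tau_one899 {τ : G K → ℂ} (hτ : IsKType τ) {w : InfinitePlace K}
    (h1 : IsArchCompact w (1 : G K)) : τ (1 : G K) = 1 := by
  have h0 := tau_ne_zero899 hτ h1
  have h := hτ.mul w 1 1 h1 h1
  rw [mul_one] at h
  have h' : τ (1 : G K) * 1 = τ (1 : G K) * τ (1 : G K) := by rw [mul_one]; exact h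
  exact (mul_left_cancel₀ h0 h').symm

/-- A one-parameter group `κ` in the compact group at `w` which is inverted by an element `J` of
the compact group (`J κ_{-γ} = κ_γ J`) lies in the kernel of every `K_∞`-type. -/
theorem tau_one_of_flip899 {τ : G K → ℂ} (hτ : IsKType τ) {w : InfinitePlace K}
    {κ : ℝ → G K} (hκ : ∀ γ, IsArchCompact w (κ γ))
    (hadd : ∀ α β, κ (α + β) = κ α * κ β) {J : G K} (hJ : IsArchCompact w J)
    (hflip : ∀ γ, J * κ (-γ) = κ γ * J) (α : ℝ) : τ (κ α) = 1 := by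
  have hκ0 : κ 0 = 1 := by
    have h := hadd 0 0
    rw [add_zero] at h
    exact (mul_eq_left.1 h.symm)
  have h1 : IsArchCompact w (1 : G K) := hκ0 ▸ hκ 0
  have hJ0 := tau_ne_zero899 hτ hJ
  have hneg : ∀ γ, τ (κ (-γ)) = τ (κ γ) := by
    intro γ
    have h := congrArg τ (hflip γ)
    rw [hτ.mul w _ _ hJ (hκ _), hτ.mul w _ _ (hκ _) hJ, mul_comm (τ (κ γ))] at h
    exact mul_left_cancel₀ hJ0 h
  have hsq : ∀ γ, τ (κ γ) * τ (κ γ) = 1 := by
    intro γ
    have h := hadd γ (-γ)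
    rw [add_neg_cancel, hκ0] at h
    have h' := congrArg τ h
    rw [tau_one899 hτ h1, hτ.mul w _ _ (hκ _) (hκ _), hneg] at h'
    exact h'.symm
  have h := hadd (α / 2) (α / 2)
  rw [add_halves] at h
  rw [h, hτ.mul w _ _ (hκ _) (hκ _)]
  exact hsq _

theorem rotZ_add899 (α β : ℝ) : rotZ (α + β) = rotZ α * rotZ β := by
  have e1 : Complex.I * (((α + β) / 2 : ℝ) : ℂ)
      = Complex.I * ((α / 2 : ℝ) : ℂ) + Complex.I * ((β / 2 : ℝ) : ℂ) := by
    push_cast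
    ring
  have e2 : Complex.exp (Complex.I * (((α + β) / 2 : ℝ) : ℂ))
      = Complex.exp (Complex.I * ((α / 2 : ℝ) : ℂ))
        * Complex.exp (Complex.I * ((β / 2 : ℝ) : ℂ)) := by
    rw [e1, Complex.exp_add]
  have e3 : Complex.exp (-(Complex.I * (((α + β) / 2 : ℝ) : ℂ)))
      = Complex.exp (-(Complex.I * ((α / 2 : ℝ) : ℂ)))
        * Complex.exp (-(Complex.I * ((β / 2 : ℝ) : ℂ))) := by
    rw [e1, neg_add, Complex.exp_add]
  unfold rotZ
  rw [e2, e3]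
  ext i j
  fin_cases i <;> fin_cases j <;> simp [Matrix.mul_apply, Fin.sum_univ_two]

theorem rotY_add899 (α β : ℝ) : rotY (α + β) = rotY α * rotY β := by
  have e1 : (α + β) / 2 = α / 2 + β / 2 := by ring
  have e2 : ((Real.cos ((α + β) / 2) : ℝ) : ℂ)
      = ((Real.cos (α / 2) : ℝ) : ℂ) * ((Real.cos (β / 2) : ℝ) : ℂ)
        - ((Real.sin (α / 2) : ℝ) : ℂ) * ((Real.sin (β / 2) : ℝ) : ℂ) := by
    rw [e1, Real.cos_add]
    push_cast
    ring
  have e3 : ((Real.sin ((α + β) / 2) : ℝ) : ℂ)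
      = ((Real.sin (α / 2) : ℝ) : ℂ) * ((Real.cos (β / 2) : ℝ) : ℂ)
        + ((Real.cos (α / 2) : ℝ) : ℂ) * ((Real.sin (β / 2) : ℝ) : ℂ) := by
    rw [e1, Real.sin_add]
    push_cast
    ring
  unfold rotY
  rw [e2, e3]
  ext i j
  fin_cases i <;> fin_cases j <;> simp [Matrix.mul_apply, Fin.sum_univ_two] <;> ring

theorem rotZ_neg899 (γ : ℝ) :
    rotZ (-γ) = !![Complex.exp (-(Complex.I * ((γ / 2 : ℝ) : ℂ))), 0;
      0, Complex.exp (Complex.I * ((γ / 2 : ℝ) : ℂ))] := by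
  have e1 : Complex.I * ((-γ / 2 : ℝ) : ℂ) = -(Complex.I * ((γ / 2 : ℝ) : ℂ)) := by
    push_cast
    ring
  unfold rotZ
  rw [e1, neg_neg]

theorem rotY_pi_rotZ899 (γ : ℝ) : rotY Real.pi * rotZ (-γ) = rotZ γ * rotY Real.pi := by
  rw [rotY_pi770, rotZ_neg899]
  unfold rotZ
  ext i j
  fin_cases i <;> fin_cases j <;> simp [Matrix.mul_apply, Fin.sum_univ_two]

theorem exp_I_pi_half899 : Complex.exp (Complex.I * ((Real.pi / 2 : ℝ) : ℂ)) = Complex.I := by
  rw [mul_comm, Complex.exp_mul_I, ← Complex.ofReal_cos, ← Complex.ofReal_sin,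
    Real.cos_pi_div_two, Real.sin_pi_div_two]
  simp

theorem rotZ_pi899 : rotZ Real.pi = !![Complex.I, 0; 0, -Complex.I] := by
  unfold rotZ
  rw [Complex.exp_neg, exp_I_pi_half899, Complex.inv_I]

theorem rotY_neg899 (β : ℝ) :
    rotY (-β) = !![((Real.cos (β / 2) : ℝ) : ℂ), ((Real.sin (β / 2) : ℝ) : ℂ);
      -((Real.sin (β / 2) : ℝ) : ℂ), ((Real.cos (β / 2) : ℝ) : ℂ)] := by
  have e1 : -β / 2 = -(β / 2) := by ring
  unfold rotY
  rw [e1, Real.cos_neg, Real.sin_neg]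
  push_cast
  rw [neg_neg]

theorem rotZ_pi_rotY899 (β : ℝ) : rotZ Real.pi * rotY (-β) = rotY β * rotZ Real.pi := by
  rw [rotZ_pi899, rotY_neg899]
  unfold rotY
  ext i j
  fin_cases i <;> fin_cases j <;> simp [Matrix.mul_apply, Fin.sum_univ_two, mul_comm]

/-- **The type is trivial on the elements of the sphere** (complex place): for the
parametrisation `Y` of a sphere, `τ(Y α β · (Y 0 0)⁻¹) = 1`. -/
theorem tau_sphere899 {τ : G K → ℂ} (hτ : IsKType τ) {w : InfinitePlace K} (hw : w.IsComplex)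
    {d : ℝ} {Y : ℝ → ℝ → G K} (hY : IsSphereAt w d Y) (α β : ℝ) :
    τ (Y α β * (Y 0 0)⁻¹) = 1 := by
  have hnr : ¬ w.IsReal := InfinitePlace.not_isReal_iff_isComplex.2 hw
  have ha : IsLocalAtInf w (Y 0 0) := (hY 0 0).1
  have hac : infComp w (Y 0 0) = torus d := by
    rw [(hY 0 0).2, rotZ_zero770, rotY_zero770, one_mul, one_mul]
  have ha' : IsLocalAtInf w (Y 0 0)⁻¹ := isLocalAtInf_inv472 ha
  have hta : torus d * infComp w (Y 0 0)⁻¹ = 1 := by
    rw [← hac]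
    exact infComp_mul_inv770 w (Y 0 0)
  have hloc : ∀ α β, IsLocalAtInf w (Y α β * (Y 0 0)⁻¹) := fun α β =>
    isLocalAtInf_mul770 (hY α β).1 ha'
  have hcomp : ∀ α β, infComp w (Y α β * (Y 0 0)⁻¹) = rotZ α * rotY β := by
    intro α β
    rw [infComp_mul770, (hY α β).2, mul_assoc, hta, mul_one]
  have hK : ∀ α β, IsArchCompact w (Y α β * (Y 0 0)⁻¹) := fun α β =>
    ⟨hloc α β, by
      rw [hcomp]
      exact unitary_mul770 (rotZ_unitary770 α) (rotY_unitary770 β), fun h => absurd h hnr⟩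
  have hcZ : ∀ γ, infComp w (Y γ 0 * (Y 0 0)⁻¹) = rotZ γ := fun γ => by
    rw [hcomp, rotY_zero770, mul_one]
  have hcY : ∀ β, infComp w (Y 0 β * (Y 0 0)⁻¹) = rotY β := fun β => by
    rw [hcomp, rotZ_zero770, one_mul]
  -- the two one-parameter groups
  have hZ : ∀ γ, τ (Y γ 0 * (Y 0 0)⁻¹) = 1 := by
    refine tau_one_of_flip899 hτ (κ := fun γ => Y γ 0 * (Y 0 0)⁻¹) (fun γ => hK γ 0) ?_
      (hK 0 Real.pi) ?_
    · intro α β
      apply eq_of_local770 (hloc _ _) (isLocalAtInf_mul770 (hloc _ _) (hloc _ _))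
      rw [infComp_mul770 w (Y α 0 * (Y 0 0)⁻¹) (Y β 0 * (Y 0 0)⁻¹), hcZ, hcZ, hcZ, rotZ_add899]
    · intro γ
      apply eq_of_local770 (isLocalAtInf_mul770 (hloc _ _) (hloc _ _))
        (isLocalAtInf_mul770 (hloc _ _) (hloc _ _))
      rw [infComp_mul770 w (Y 0 Real.pi * (Y 0 0)⁻¹) (Y (-γ) 0 * (Y 0 0)⁻¹),
        infComp_mul770 w (Y γ 0 * (Y 0 0)⁻¹) (Y 0 Real.pi * (Y 0 0)⁻¹), hcZ, hcZ, hcY,
        rotY_pi_rotZ899]
  have hYY : ∀ β, τ (Y 0 β * (Y 0 0)⁻¹) = 1 := by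
    refine tau_one_of_flip899 hτ (κ := fun β => Y 0 β * (Y 0 0)⁻¹) (fun β => hK 0 β) ?_
      (hK Real.pi 0) ?_
    · intro α β
      apply eq_of_local770 (hloc _ _) (isLocalAtInf_mul770 (hloc _ _) (hloc _ _))
      rw [infComp_mul770 w (Y 0 α * (Y 0 0)⁻¹) (Y 0 β * (Y 0 0)⁻¹), hcY, hcY, hcY, rotY_add899]
    · intro β
      apply eq_of_local770 (isLocalAtInf_mul770 (hloc _ _) (hloc _ _))
        (isLocalAtInf_mul770 (hloc _ _) (hloc _ _))
      rw [infComp_mul770 w (Y Real.pi 0 * (Y 0 0)⁻¹) (Y 0 (-β) * (Y 0 0)⁻¹),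
        infComp_mul770 w (Y 0 β * (Y 0 0)⁻¹) (Y Real.pi 0 * (Y 0 0)⁻¹), hcZ, hcY, hcY,
        rotZ_pi_rotY899]
  have hprod : Y α β * (Y 0 0)⁻¹ = (Y α 0 * (Y 0 0)⁻¹) * (Y 0 β * (Y 0 0)⁻¹) := by
    apply eq_of_local770 (hloc _ _) (isLocalAtInf_mul770 (hloc _ _) (hloc _ _))
    rw [infComp_mul770 w (Y α 0 * (Y 0 0)⁻¹) (Y 0 β * (Y 0 0)⁻¹), hcZ, hcY, hcomp]
  rw [hprod, hτ.mul w _ _ (hK α 0) (hK 0 β), hZ, hYY, one_mul]

/-! ## 5. The means as integrals over a finite measure -/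

/-- The twisted circle mean as an integral over `nuC770`. -/
theorem circleMeanT_eq899 (τ : G K → ℂ) (k : ℝ → G K) (a : G K) (χ : G K → ℂ) (g : G K) :
    circleMeanT τ k a χ g = ∫ θ, (τ (k θ))⁻¹ * χ (g * (k θ * a)) ∂nuC770 := by
  have h2 : (0 : ℝ) ≤ 2 * Real.pi := by positivity
  unfold circleMeanT nuC770
  rw [intervalIntegral.integral_of_le h2]
  simp only [mul_assoc]

/-! ## 6. The sub-leaf -/

/-- **Sphere means are self-adjoint on the cusp functions of the class.** -/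
theorem sphere_adjT899 {𝔫 : Ideal (𝓞 K)} {τ : G K → ℂ} (hτ : IsKType τ) (R : FrameR K)
    (hTr : TranslInvT899 R) {w : InfinitePlace K} (hw : w.IsComplex) {d : ℝ}
    {Y : ℝ → ℝ → G K} (hY : IsSphereAt w d Y) :
    H291.IsAdjT291 𝔫 τ R (sphereMean Y) (sphereMean Y) := by
  intro φ ψ hφ hψ
  have hYc : Continuous fun p : ℝ × ℝ => Y p.1 p.2 := continuous_sphereT899 hY
  obtain ⟨Cφ, hCφ⟩ := hφ.aut.bdd
  obtain ⟨Cψ, hCψ⟩ := hψ.aut.bdd
  have hB : BorelSpace (G K) := ⟨rfl⟩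
  have hfin := isFiniteMeasure_nuS770
  have hnr : ¬ w.IsReal := InfinitePlace.not_isReal_iff_isComplex.2 hw
  have ha : infComp w (Y 0 0) = torus d := by
    rw [(hY 0 0).2, rotZ_zero770, rotY_zero770, one_mul, one_mul]
  have hj : infComp w (Y 0 Real.pi) = rotY Real.pi * torus d := by
    rw [(hY 0 Real.pi).2, rotZ_zero770, one_mul]
  have hpt : ∀ p : ℝ × ℝ, ∫ g in R.F.D, φ (g * Y p.1 p.2) * conj (ψ g) ∂(R.F.μ)
      = ∫ g in R.F.D, φ g * conj (ψ (g * Y p.1 p.2)) ∂(R.F.μ) := fun p => by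
    have h := pointwiseT899 R hTr hτ hφ.aut hψ.aut
      (unitary_mul770 (rotZ_unitary770 p.1) (rotY_unitary770 p.2))
      (fun h => absurd h hnr) (hY p.1 p.2).1 (hY p.1 p.2).2 (hY 0 0).1 ha (hY 0 Real.pi).1 hj
    rw [h.1, h.2, tau_sphere899 hτ hw hY p.1 p.2, inv_one]
  have key := mean_adj_abstract770 R.F.μ R.F.D R.F.fin nuS770 hφ.aut.cont hψ.aut.cont hCφ hCψ
    hYc (s := fun p : ℝ × ℝ => Real.sin p.2) (Real.continuous_sin.comp continuous_snd)
    (Cs := 1) (fun p => Real.abs_sin_le_one _) hpt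
  unfold pair
  have e1 : (fun g => sphereMean Y φ g * conj (ψ g))
      = fun g => (∫ p, φ (g * Y p.1 p.2) * ((Real.sin p.2 : ℝ) : ℂ) ∂nuS770) * conj (ψ g) := by
    funext g
    rw [sphereMean_eq770 hYc hφ.aut.cont hCφ g]
  have e2 : (fun g => φ g * conj (sphereMean Y ψ g))
      = fun g => φ g * conj (∫ p, ψ (g * Y p.1 p.2) * ((Real.sin p.2 : ℝ) : ℂ) ∂nuS770) := by
    funext g
    rw [sphereMean_eq770 hYc hψ.aut.cont hCψ g]
  rw [e1, e2]
  exact key

/-- **Twisted circle means are self-adjoint on the cusp functions of the class.** -/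
theorem circle_adjT899 {𝔫 : Ideal (𝓞 K)} {τ : G K → ℂ} (hτ : IsKType τ) (R : FrameR K)
    (hTr : TranslInvT899 R) {w : InfinitePlace K} {t : ℝ} {k : ℝ → G K} {a : G K}
    (hk : IsRotAt w k) (ha : IsTorusAt w t a) :
    H291.IsAdjT291 𝔫 τ R (circleMeanT τ k a) (circleMeanT τ k a) := by
  intro φ ψ hφ hψ
  have hkc : Continuous k := continuous_rot899 hk
  have hyc : Continuous fun θ : ℝ => k θ * a := hkc.mul continuous_const
  obtain ⟨Cφ, hCφ⟩ := hφ.aut.bdd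
  obtain ⟨Cψ, hCψ⟩ := hψ.aut.bdd
  have hB : BorelSpace (G K) := ⟨rfl⟩
  have hfin := isFiniteMeasure_nuC770
  have hloc : ∀ θ, IsLocalAtInf w (k θ * a) := fun θ => isLocalAtInf_mul770 (hk θ).1 ha.1
  have hcomp : ∀ θ, infComp w (k θ * a) = rotY θ * torus t := fun θ => by
    rw [infComp_mul770, (hk θ).2, ha.2]
  have hpt : ∀ θ : ℝ, (τ (k θ))⁻¹ * ∫ g in R.F.D, φ (g * (k θ * a)) * conj (ψ g) ∂(R.F.μ)
      = conj ((τ (k θ))⁻¹) * ∫ g in R.F.D, φ g * conj (ψ (g * (k θ * a))) ∂(R.F.μ) := by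
    intro θ
    have hKθ := isArchCompact_rot899 hk θ
    have h0 := tau_ne_zero899 hτ hKθ
    have h := pointwiseT899 R hTr hτ hφ.aut hψ.aut (rotY_unitary770 θ)
      (fun _ => rotY_det770 θ) (hloc θ) (hcomp θ) ha.1 ha.2 (hloc Real.pi) (hcomp Real.pi)
    rw [mul_inv_cancel_right] at h
    rw [h.1, h.2, conj_tau_inv899 hτ hKθ, ← mul_assoc, ← mul_assoc, inv_mul_cancel₀ h0,
      mul_inv_cancel₀ h0]
  have key := mean_adj_abstractC899 R.F.μ R.F.D R.F.fin nuC770 hφ.aut.cont hψ.aut.cont hCφ hCψ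
    hyc (s := fun θ : ℝ => (τ (k θ))⁻¹) (continuous_tau_rot_inv899 hτ hk) (Cs := 1)
    (fun θ => le_of_eq (norm_tau_inv899 hτ (isArchCompact_rot899 hk θ))) hpt
  unfold pair
  have e1 : (fun g => circleMeanT τ k a φ g * conj (ψ g))
      = fun g => (∫ θ, (τ (k θ))⁻¹ * φ (g * (k θ * a)) ∂nuC770) * conj (ψ g) := by
    funext g
    rw [circleMeanT_eq899 τ k a φ g]
  have e2 : (fun g => φ g * conj (circleMeanT τ k a ψ g))
      = fun g => φ g * conj (∫ θ, (τ (k θ))⁻¹ * ψ (g * (k θ * a)) ∂nuC770) := by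
    funext g
    rw [circleMeanT_eq899 τ k a ψ g]
  rw [e1, e2]
  exact key

/-- **T2.27.16** `SubMeanAdjT291` from the KEY LEMMA T2.27.00 (`SubTranslT291`), VERBATIM.
(T2.07.30 is `locCont472` of helper472; the triviality of the type on the elements of the sphere
is proved here, `tau_sphere899`; of `CtxT291` only `t1` and `kt` are used.) -/
theorem subMeanAdjT899 (hTr : H291.SubTranslT291 K) : H291.SubMeanAdjT291 K := by
  intro 𝔫 τ c R
  have hTrR : TranslInvT899 R := translInvT_of_sub899 hTr c.t1 R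
  exact ⟨fun _ hw _ _ _ hY => sphere_adjT899 c.kt R hTrR hw hY,
    fun _ _ _ _ _ _ hk ha => circle_adjT899 c.kt R hTrR hk ha⟩

example (hTr : H291.SubTranslT291 K) : H291.SubMeanAdjT291 K := subMeanAdjT899 hTr

end Fermat.Agent.LT.T2.H899

end
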