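import Mathlib
import Fermat.Agent.LT.H556.A0
import Fermat.Agent.LT.T1.Spec
import Fermat.Agent.LT.T2.Spec
import Fermat.Agent.LT.T2.SpecTau
import Fermat.Agent.LT.T2.H291.OpsSpecT
import Fermat.Agent.LT.T2.H322.MeanBdd
import Fermat.Agent.LT.T2.H899.MeanCoreT

/-!
# Row LT, tower T2, sub-leaf T2.27.15 `SubMeanBddT291` (helper899): the sphere means and the
`τ`-twisted circle means are bounded in `L²` on the cusp functions of the class `(𝔫, τ, r)`

OFF-MAIN.  `T`-form of T2.07.15 (helper322): SAME proof with `τ`, `r` as parameters.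
Spec: `LT/T2/H291/OpsSpecT.lean` (helper291, sha256 c8359c85), byte-identical copy.
Assets (byte-identical copies): `abs_mean_bound322`, `nsq_le322`, `nsq_eq322`,
`norm_sphereMean_le322`, `rhoS322`, `rhoC322` (helper322), `locCont472` (helper472).
Nothing is assumed, no opaque constant, no placeholder proof.

* `int_sq_translT899`: `∫_D |φ(g h)|² = ∫_D |φ(g)|²` for an automorphic function of the class
  (KEY LEMMA T2.27.00 for `|φ|²`, which is left invariant under `GL₂(K)` and right invariant under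
  the ray generator).
* `meanBdd_generalT899`: for ANY finite measure `ρ` on a second countable space `P`, any
  continuous `Y : P → G K` and any `v` with `|v(g)| ≤ ∫ |φ(g Y(p))| dρ(p)`:
  `‖v‖² ≤ ρ(P)² ‖φ‖²`.
* `norm_circleMeanT_le899`: `|M_τ φ(g)| ≤ ∫ |φ(g k_θ a)| dθ` (`|τ(k_θ)| = 1`).
* `subMeanBddT899 : SubTranslT291 K → SubMeanBddT291 K`, VERBATIM.
-/

set_option autoImplicit false
set_option linter.unusedSectionVars false

open IsDedekindDomain NumberField MeasureTheory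
open Fermat.Agent.LT.H556.A0
open Fermat.Agent.LT.T2 Fermat.Agent.LT.T2.H322

noncomputable section

namespace Fermat.Agent.LT.T2.H899

variable {K : Type} [Field K] [NumberField K]

attribute [local instance] Fermat.Agent.LT.T2.borelG

/-! ## 1. The KEY LEMMA for `|φ|²` -/

theorem int_sq_translT899 {𝔫 : Ideal (𝓞 K)} {τ : G K → ℂ} (R : FrameR K)
    (hTr : TranslInvT899 R) {φ : G K → ℂ} (hφ : IsAutT 𝔫 τ R.r φ) (h : G K) :
    ∫ g in R.F.D, ‖φ (g * h)‖ ^ 2 ∂(R.F.μ) = ∫ g in R.F.D, ‖φ g‖ ^ 2 ∂(R.F.μ) := by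
  have key := hTr (fun g => ((‖φ g‖ ^ 2 : ℝ) : ℂ))
    (fun γ g => by
      have := hφ.left_inv γ g
      show ((‖φ (T1.ratG K γ * g)‖ ^ 2 : ℝ) : ℂ) = ((‖φ g‖ ^ 2 : ℝ) : ℂ)
      unfold T1.ratG
      rw [this])
    (fun g => by
      show ((‖φ (g * R.r)‖ ^ 2 : ℝ) : ℂ) = ((‖φ g‖ ^ 2 : ℝ) : ℂ)
      rw [hφ.ray g]) h
  have e1 : ∫ g in R.F.D, ((‖φ (g * h)‖ ^ 2 : ℝ) : ℂ) ∂(R.F.μ)
      = ((∫ g in R.F.D, ‖φ (g * h)‖ ^ 2 ∂(R.F.μ) : ℝ) : ℂ) := integral_ofReal
  have e2 : ∫ g in R.F.D, ((‖φ g‖ ^ 2 : ℝ) : ℂ) ∂(R.F.μ)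
      = ((∫ g in R.F.D, ‖φ g‖ ^ 2 ∂(R.F.μ) : ℝ) : ℂ) := integral_ofReal
  have key' : ∫ g in R.F.D, ((‖φ (g * h)‖ ^ 2 : ℝ) : ℂ) ∂(R.F.μ)
      = ∫ g in R.F.D, ((‖φ g‖ ^ 2 : ℝ) : ℂ) ∂(R.F.μ) := key
  rw [e1, e2] at key'
  exact Complex.ofReal_injective key'

/-! ## 2. The bound for a general finite parameter space -/

/-- The general bound: `P` a second countable space with a finite measure `ρ`, `Y : P → G K`
continuous, `v` dominated by the `ρ`-mean of `|φ(g Y(p))|`. -/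
theorem meanBdd_generalT899 {𝔫 : Ideal (𝓞 K)} {τ : G K → ℂ} (R : FrameR K)
    (hTr : TranslInvT899 R)
    {P : Type} [TopologicalSpace P] [SecondCountableTopology P] [MeasurableSpace P]
    [OpensMeasurableSpace P] (ρ : Measure P) [IsFiniteMeasure ρ]
    (Y : P → G K) (hY : Continuous Y) {φ : G K → ℂ} (hφ : IsAutT 𝔫 τ R.r φ)
    (v : G K → ℂ) (hv : ∀ g, ‖v g‖ ≤ ∫ p, ‖φ (g * Y p)‖ ∂ρ) :
    nsq R.F v ≤ ρ.real Set.univ ^ 2 * nsq R.F φ := by
  have := borelSpaceG322 (K := K)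
  have := isFinite_restrict322 R.F
  obtain ⟨B, hB⟩ := hφ.bdd
  have hcont : Continuous (Function.uncurry fun (g : G K) (p : P) => φ (g * Y p)) :=
    hφ.cont.comp (continuous_fst.mul (hY.comp continuous_snd))
  have hmain := abs_mean_bound322 (R.F.μ.restrict R.F.D) ρ (fun g p => φ (g * Y p))
    hcont.measurable B (fun g p => hB _) (∫ g in R.F.D, ‖φ g‖ ^ 2 ∂(R.F.μ))
    (fun p => le_of_eq (int_sq_translT899 R hTr hφ (Y p))) v hv
  rw [nsq_eq322 R.F hφ.cont hφ.bdd]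
  exact (nsq_le322 R.F v).trans hmain

/-! ## 3. The pointwise bound for the twisted circle mean -/

/-- The `τ`-twisted circle mean is dominated by the mean of `|φ|`. -/
theorem norm_circleMeanT_le899 {τ : G K → ℂ} (hτ : IsKType τ) {w : InfinitePlace K}
    {k : ℝ → G K} (hk : IsRotAt w k) (a : G K) (φ : G K → ℂ) (g : G K) :
    ‖circleMeanT τ k a φ g‖ ≤ ∫ θ, ‖φ (g * (k θ * a))‖ ∂rhoC322 := by
  have e1 : circleMeanT τ k a φ g = ∫ θ, (τ (k θ))⁻¹ * φ (g * k θ * a) ∂rhoC322 := by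
    unfold circleMeanT rhoC322
    rw [intervalIntegral.integral_of_le (by positivity)]
  have e2 : (fun θ => ‖(τ (k θ))⁻¹ * φ (g * k θ * a)‖) = fun θ => ‖φ (g * (k θ * a))‖ := by
    funext θ
    rw [norm_mul, norm_tau_inv899 hτ (isArchCompact_rot899 hk θ), one_mul, mul_assoc]
  rw [e1]
  refine (norm_integral_le_integral_norm _).trans (le_of_eq ?_)
  rw [e2]

/-! ## 4. The two clauses of `SubMeanBddT291` -/

/-- **Sphere means are bounded on the cusp functions of the class.** -/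
theorem sphereBddT899 {𝔫 : Ideal (𝓞 K)} {τ : G K → ℂ} (R : FrameR K) (hTr : TranslInvT899 R)
    (w : InfinitePlace K) (d : ℝ) (Y : ℝ → ℝ → G K) (hY : IsSphereAt w d Y) :
    H291.BddT291 𝔫 τ R (sphereMean Y) := by
  have hYc := continuous_sphereT899 hY
  exact ⟨rhoS322.real Set.univ ^ 2, fun φ hφ =>
    meanBdd_generalT899 R hTr rhoS322 (fun p : ℝ × ℝ => Y p.1 p.2) hYc hφ.aut _
      (norm_sphereMean_le322 Y hYc hφ.aut.cont hφ.aut.bdd)⟩

/-- **Twisted circle means are bounded on the cusp functions of the class.** -/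
theorem circleBddT899 {𝔫 : Ideal (𝓞 K)} {τ : G K → ℂ} (hτ : IsKType τ) (R : FrameR K)
    (hTr : TranslInvT899 R) (w : InfinitePlace K) (k : ℝ → G K) (a : G K) (hk : IsRotAt w k) :
    H291.BddT291 𝔫 τ R (circleMeanT τ k a) := by
  have hYc : Continuous (fun θ : ℝ => k θ * a) := (continuous_rot899 hk).mul continuous_const
  exact ⟨rhoC322.real Set.univ ^ 2, fun φ hφ =>
    meanBdd_generalT899 R hTr rhoC322 (fun θ : ℝ => k θ * a) hYc hφ.aut _
      (norm_circleMeanT_le899 hτ hk a φ)⟩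

/-- **T2.27.15** `SubMeanBddT291` from the KEY LEMMA T2.27.00 (`SubTranslT291`), VERBATIM.
(T2.07.30 is `locCont472` of helper472; of `CtxT291` only `t1` and `kt` are used.) -/
theorem subMeanBddT899 (hTr : H291.SubTranslT291 K) : H291.SubMeanBddT291 K := by
  intro 𝔫 τ c R
  have hTrR : TranslInvT899 R := translInvT_of_sub899 hTr c.t1 R
  exact ⟨fun w _ d _ Y hY => sphereBddT899 R hTrR w d Y hY,
    fun w _ t _ k a hk _ => circleBddT899 c.kt R hTrR w k a hk⟩

example (hTr : H291.SubTranslT291 K) : H291.SubMeanBddT291 K := subMeanBddT899 hTr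

end Fermat.Agent.LT.T2.H899

end
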